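import Fermat.Agent.S24.H624.Regular
import Fermat.Agent.S24.Alg.LocPlace

/-!
# S29 / K3 analytic glue kit (helper882), part 1: division in the ring of holomorphic functions

`holoRing` (landed `S24.H624`) is the ring of holomorphic functions on `ℍ`, `MerH` its fraction
field.

* `exists_holo_of_isIntegral` : `holoRing` is integrally closed in `MerH`;
* `exists_holo_div_of_pow`    : `A ^ p = C * B ^ p`, `B ≠ 0` ⟹ `A = V * B` with `V ^ p = C`
  (a meromorphic function whose `p`-th power is holomorphic is holomorphic).
-/

set_option autoImplicit false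

noncomputable section

open UpperHalfPlane
open scoped MatrixGroups Manifold

namespace Fermat.Agent.S29.H882

open Fermat.Agent.S24 Fermat.Agent.S24.H624

/-- The valuation ring of `MerH` at the point `τ`. -/
def merValSubring (τ : ℍ) : ValuationSubring MerH := H144.locValSubring (laurentAt τ)

theorem mem_merValSubring (τ : ℍ) (F : MerH) : F ∈ merValSubring τ ↔ 0 ≤ ordM τ F := Iff.rfl

theorem algebraMap_mem_merValSubring (τ : ℍ) (f : holoRing) :
    algebraMap holoRing MerH f ∈ merValSubring τ :=
  (mem_merValSubring τ _).mpr (ordM_algebraMap_nonneg τ f)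

/-- An element of `MerH` which is integral over the ring of holomorphic functions has no poles. -/
theorem ordM_nonneg_of_isIntegral {F : MerH} (hF : IsIntegral holoRing F) (τ : ℍ) :
    0 ≤ ordM τ F := by
  have hint : IsIntegral (merValSubring τ) F := by
    obtain ⟨P, hPm, hP⟩ := hF
    let φ : holoRing →+* merValSubring τ :=
      (algebraMap holoRing MerH).codRestrict (merValSubring τ).toSubring
        (algebraMap_mem_merValSubring τ)
    refine ⟨P.map φ, hPm.map φ, ?_⟩
    rw [Polynomial.eval₂_map]
    have hcomp : (algebraMap (merValSubring τ) MerH).comp φ = algebraMap holoRing MerH := by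
      ext f; rfl
    rw [hcomp]
    exact hP
  obtain ⟨y, hy⟩ := IsIntegrallyClosed.isIntegral_iff.mp hint
  rw [← hy]
  exact (mem_merValSubring τ _).mp y.2

/-- **`holoRing` is integrally closed in `MerH`.** -/
theorem exists_holo_of_isIntegral {F : MerH} (hF : IsIntegral holoRing F) :
    ∃ f : holoRing, algebraMap holoRing MerH f = F :=
  exists_holo_of_ordM_nonneg F (ordM_nonneg_of_isIntegral hF)

/-- **Division.**  If `A ^ p = C * B ^ p` in `holoRing` and `B ≠ 0`, then `B` divides `A` and the
quotient `V` satisfies `V ^ p = C`. -/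
theorem exists_holo_div_of_pow {p : ℕ} (hp : p ≠ 0) {A B C : holoRing} (hB : B ≠ 0)
    (h : A ^ p = C * B ^ p) : ∃ V : holoRing, A = V * B ∧ V ^ p = C := by
  have hBK : algebraMap holoRing MerH B ≠ 0 := algebraMap_MerH_ne_zero hB
  have hFp : (algebraMap holoRing MerH A / algebraMap holoRing MerH B) ^ p
      = algebraMap holoRing MerH C := by
    rw [div_pow, ← map_pow, ← map_pow, h, map_mul, mul_div_assoc,
      div_self (by rw [map_pow]; exact pow_ne_zero p hBK), mul_one]
  have hord : ∀ τ : ℍ, 0 ≤ ordM τ (algebraMap holoRing MerH A / algebraMap holoRing MerH B) := by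
    intro τ
    have h1 := ordM_pow τ (algebraMap holoRing MerH A / algebraMap holoRing MerH B) p
    rw [hFp] at h1
    have h2 := ordM_algebraMap_nonneg τ C
    have hp' : (0 : ℤ) < (p : ℤ) := by exact_mod_cast Nat.pos_of_ne_zero hp
    by_contra hneg
    rw [not_le] at hneg
    have := mul_neg_of_pos_of_neg hp' hneg
    omega
  obtain ⟨V, hV⟩ := exists_holo_of_ordM_nonneg _ hord
  refine ⟨V, ?_, ?_⟩
  · apply IsFractionRing.injective holoRing MerH
    rw [map_mul, hV, div_mul_cancel₀ _ hBK]
  · apply IsFractionRing.injective holoRing MerH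
    rw [map_pow, hV, hFp]

/-- Division with a unit factor: `A ^ p * D = C * B ^ p` pattern is reduced to the previous one by
the caller; here the plain divisibility statement: if `F = A / B` has no poles then `B ∣ A`. -/
theorem exists_holo_mul_eq {A B : holoRing} (hB : B ≠ 0)
    (h : ∀ τ : ℍ, 0 ≤ ordM τ (algebraMap holoRing MerH A / algebraMap holoRing MerH B)) :
    ∃ V : holoRing, A = V * B := by
  obtain ⟨V, hV⟩ := exists_holo_of_ordM_nonneg _ h
  refine ⟨V, ?_⟩
  apply IsFractionRing.injective holoRing MerH
  rw [map_mul, hV, div_mul_cancel₀ _ (algebraMap_MerH_ne_zero hB)]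

end Fermat.Agent.S29.H882
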