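import Fermat.Agent.S29.H882.GlueHolo
import Fermat.Agent.S29.H882.MeroPrim

/-!
# S29 / K3 analytic glue kit (helper882), part 2: integral ⟹ holomorphic

`goodQ N` (the `q`-expansions of the good functions of level `N`) is integrally closed in the
function field `F_ℂ = laurentBaseChange ℂ (modularFunctionFieldFull N)`:

* `mem_goodQ_of_isIntegral` : `x ∈ F_ℂ` integral over `goodQ N` ⟹ `x ∈ goodQ N`;
* `mem_goodQ_of_monic`      : the same for a monic equation over `ℂ[j]` (shape of
  `exists_monic_of_mem_goodQ`), so `goodQ N` = integral closure of `ℂ[j]` in `F_ℂ`.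
-/

set_option autoImplicit false

noncomputable section

open UpperHalfPlane ModularGroup CongruenceSubgroup Polynomial ModularCurve
open scoped MatrixGroups Manifold Modular Real

namespace Fermat.Agent.S29.H882

open Fermat.Agent.S24 Fermat.Agent.S24.H648 Fermat.Agent.S24.H708 Fermat.Agent.S24.Deg457
open Fermat.Agent.S24.H624

variable {N : ℕ}

/-! ### The `q`-expansion ring homomorphism on `goodRing N` -/

variable (N) in
/-- `q`-expansion at `i∞` as a ring homomorphism on the good functions. -/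
def qexpGood : goodRing N →+* LaurentSeries ℂ where
  toFun f := qexpFun 1 (f : ℍ → ℂ)
  map_one' := (HasQExp.one 1).qexpFun_eq
  map_mul' f g :=
    ((hasQExp_of_mem_goodRing f.2).mul (hasQExp_of_mem_goodRing g.2)).qexpFun_eq
  map_zero' := (HasQExp.zero 1).qexpFun_eq
  map_add' f g :=
    ((hasQExp_of_mem_goodRing f.2).add (hasQExp_of_mem_goodRing g.2)).qexpFun_eq

@[simp] theorem qexpGood_apply (f : goodRing N) : qexpGood N f = qexpFun 1 (f : ℍ → ℂ) := rfl

theorem hasQExp_qexpGood (f : goodRing N) : HasQExp 1 (f : ℍ → ℂ) (qexpGood N f) :=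
  hasQExp_of_mem_goodRing f.2

theorem qexpGood_injective : Function.Injective (qexpGood N) := by
  rw [injective_iff_map_eq_zero]
  intro f hf
  have := (hasQExp_qexpGood f).eq_zero_iff.mp hf
  exact Subtype.ext this

theorem mem_goodQ_iff_range {b : LaurentSeries ℂ} :
    b ∈ goodQ N ↔ b ∈ Set.range (qexpGood N) := by
  constructor
  · rintro ⟨f, hf, hfb⟩
    exact ⟨⟨f, hf⟩, hfb.qexpFun_eq⟩
  · rintro ⟨f, rfl⟩
    exact ⟨f, f.2, hasQExp_qexpGood f⟩

/-- Evaluation at a point, as a ring homomorphism on `goodRing N`. -/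
def evalGood (τ : ℍ) : goodRing N →+* ℂ :=
  (Pi.evalRingHom (fun _ : ℍ => ℂ) τ).comp (goodRing N).val.toRingHom

@[simp] theorem evalGood_apply (τ : ℍ) (f : goodRing N) : evalGood τ f = (f : ℍ → ℂ) τ := rfl

/-! ### Roots of monic polynomials are bounded by the coefficients -/

theorem norm_le_of_monic_isRoot {q : ℂ[X]} (hq : q.Monic) {z : ℂ} (hz : q.IsRoot z) :
    ‖z‖ ≤ 1 + ∑ i ∈ Finset.range q.natDegree, ‖q.coeff i‖ := by
  have h := Polynomial.IsRoot.norm_lt_cauchyBound hq.ne_zero hz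
  have hle : cauchyBound q ≤ (∑ i ∈ Finset.range q.natDegree, ‖q.coeff i‖₊) + 1 := by
    unfold cauchyBound
    rw [hq.leadingCoeff, nnnorm_one, div_one]
    gcongr
    apply Finset.sup_le
    intro i hi
    exact Finset.single_le_sum (f := fun i => ‖q.coeff i‖₊) (fun _ _ => zero_le) hi
  have h2 : ‖z‖₊ ≤ (∑ i ∈ Finset.range q.natDegree, ‖q.coeff i‖₊) + 1 := h.le.trans hle
  have h3 : ((‖z‖₊ : NNReal) : ℝ) ≤
      (((∑ i ∈ Finset.range q.natDegree, ‖q.coeff i‖₊) + 1 : NNReal) : ℝ) := by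
    exact_mod_cast h2
  rw [coe_nnnorm] at h3
  rw [NNReal.coe_add, NNReal.coe_sum, NNReal.coe_one] at h3
  simp only [coe_nnnorm] at h3
  linarith

/-! ### Exponential growth of finite sums of norms -/

theorem exists_bound_sum_norm {ι : Type*} (s : Finset ι) (f : ι → ℍ → ℂ)
    (hf : ∀ i ∈ s, ExpGrowth (f i)) :
    ∃ (C : ℝ) (m : ℕ), 0 ≤ C ∧ ∀ τ : ℍ, 1 ≤ τ.im →
      ∑ i ∈ s, ‖f i τ‖ ≤ C * Real.exp (2 * π * m * τ.im) := by
  classical
  induction s using Finset.induction_on with
  | empty => exact ⟨0, 0, le_rfl, fun τ _ => by simp⟩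
  | insert a s ha ih =>
    obtain ⟨C, m, hC, h⟩ := ih (fun i hi => hf i (Finset.mem_insert_of_mem hi))
    obtain ⟨C', m', h'⟩ := hf a (Finset.mem_insert_self a s)
    refine ⟨|C'| + C, m' + m, by positivity, fun τ hτ => ?_⟩
    rw [Finset.sum_insert ha]
    have hy : 0 ≤ τ.im := by linarith
    have e1 : Real.exp (2 * π * m' * τ.im) ≤ Real.exp (2 * π * ((m' + m : ℕ) : ℝ) * τ.im) := by
      apply Real.exp_le_exp.mpr
      push_cast
      have : 0 ≤ 2 * π * (m : ℝ) * τ.im := by positivity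
      nlinarith [Real.pi_pos]
    have e2 : Real.exp (2 * π * m * τ.im) ≤ Real.exp (2 * π * ((m' + m : ℕ) : ℝ) * τ.im) := by
      apply Real.exp_le_exp.mpr
      push_cast
      have : 0 ≤ 2 * π * (m' : ℝ) * τ.im := by positivity
      nlinarith [Real.pi_pos]
    have h1 : ‖f a τ‖ ≤ |C'| * Real.exp (2 * π * ((m' + m : ℕ) : ℝ) * τ.im) := by
      calc ‖f a τ‖ ≤ C' * Real.exp (2 * π * m' * τ.im) := h' τ hτ
        _ ≤ |C'| * Real.exp (2 * π * m' * τ.im) :=
            mul_le_mul_of_nonneg_right (le_abs_self C') (Real.exp_pos _).le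
        _ ≤ |C'| * Real.exp (2 * π * ((m' + m : ℕ) : ℝ) * τ.im) :=
            mul_le_mul_of_nonneg_left e1 (abs_nonneg C')
    have h2 : ∑ i ∈ s, ‖f i τ‖ ≤ C * Real.exp (2 * π * ((m' + m : ℕ) : ℝ) * τ.im) :=
      (h τ hτ).trans (mul_le_mul_of_nonneg_left e2 hC)
    calc ‖f a τ‖ + ∑ i ∈ s, ‖f i τ‖
        ≤ |C'| * Real.exp (2 * π * ((m' + m : ℕ) : ℝ) * τ.im)
          + C * Real.exp (2 * π * ((m' + m : ℕ) : ℝ) * τ.im) := add_le_add h1 h2
      _ = (|C'| + C) * Real.exp (2 * π * ((m' + m : ℕ) : ℝ) * τ.im) := by ring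

/-- A function which is pointwise a root of a monic polynomial with good coefficients has all its
`SL₂(ℤ)`-translates of at most exponential growth. -/
theorem expGrowth_of_monic_root {Q : (goodRing N)[X]} (hQ : Q.Monic) {G : ℍ → ℂ}
    (hG : ∀ τ : ℍ, (Q.map (evalGood τ)).IsRoot (G τ)) (g : SL(2, ℤ)) :
    ExpGrowth (fun τ => G (g • τ)) := by
  obtain ⟨C, m, hC, h⟩ := exists_bound_sum_norm (Finset.range Q.natDegree)
    (fun i τ => ((Q.coeff i : goodRing N) : ℍ → ℂ) (g • τ)) (fun i _ => (Q.coeff i).2.2.2 g)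
  refine ⟨1 + C, m, fun τ hτ => ?_⟩
  have hm : (Q.map (evalGood (g • τ))).Monic := hQ.map _
  have h1 := norm_le_of_monic_isRoot hm (hG (g • τ))
  have hdeg : (Q.map (evalGood (g • τ))).natDegree = Q.natDegree :=
    hQ.natDegree_map _
  rw [hdeg] at h1
  have h2 : ∑ i ∈ Finset.range Q.natDegree, ‖(Q.map (evalGood (g • τ))).coeff i‖
      = ∑ i ∈ Finset.range Q.natDegree, ‖((Q.coeff i : goodRing N) : ℍ → ℂ) (g • τ)‖ := by
    refine Finset.sum_congr rfl fun i _ => ?_
    rw [Polynomial.coeff_map, evalGood_apply]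
  rw [h2] at h1
  have h3 := h τ hτ
  have hy : 0 ≤ τ.im := by linarith
  have hexp : 1 ≤ Real.exp (2 * π * m * τ.im) := by
    apply Real.one_le_exp
    positivity
  calc ‖G (g • τ)‖ ≤ 1 + C * Real.exp (2 * π * m * τ.im) := by linarith
    _ ≤ 1 * Real.exp (2 * π * m * τ.im) + C * Real.exp (2 * π * m * τ.im) := by linarith
    _ = (1 + C) * Real.exp (2 * π * m * τ.im) := by ring

end Fermat.Agent.S29.H882

namespace Fermat.Agent.S29.H882

open Fermat.Agent.S24 Fermat.Agent.S24.H648 Fermat.Agent.S24.H708 Fermat.Agent.S24.Deg457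
open Fermat.Agent.S24.H624

variable {N : ℕ}

/-! ### Good functions inside holomorphic functions -/

variable (N) in
/-- The inclusion of the good functions into the holomorphic functions. -/
def goodToHolo : goodRing N →+* holoRing where
  toFun f := ⟨(f : ℍ → ℂ), f.2.1⟩
  map_one' := rfl
  map_mul' _ _ := rfl
  map_zero' := rfl
  map_add' _ _ := rfl

@[simp] theorem coe_goodToHolo (f : goodRing N) :
    ((goodToHolo N f : holoRing) : ℍ → ℂ) = (f : ℍ → ℂ) := rfl

theorem goodToHolo_injective : Function.Injective (goodToHolo N) := by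
  intro f g h
  exact Subtype.ext (congrArg (fun x : holoRing => (x : ℍ → ℂ)) h)

/-- Evaluation at a point, as a ring homomorphism on `holoRing`. -/
def evalHolo (τ : ℍ) : holoRing →+* ℂ :=
  (Pi.evalRingHom (fun _ : ℍ => ℂ) τ).comp holoRing.val.toRingHom

@[simp] theorem evalHolo_apply (τ : ℍ) (f : holoRing) : evalHolo τ f = (f : ℍ → ℂ) τ := rfl

theorem evalHolo_comp_goodToHolo (τ : ℍ) :
    (evalHolo τ).comp (goodToHolo N) = evalGood τ := rfl

/-- `goodRing N` is a domain. -/
theorem isDomain_goodRing : IsDomain (goodRing N) :=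
  goodToHolo_injective.isDomain (goodToHolo N)

/-- A holomorphic `G` with `G * B = A` (`A`, `B` good, `B ≠ 0`) is `Γ₀(N)`-invariant. -/
theorem invariant_of_mul_eq {A B : goodRing N} (hB : B ≠ 0) {G : holoRing}
    (hGB : G * goodToHolo N B = goodToHolo N A) (γ : SL(2, ℤ)) (hγ : γ ∈ Gamma0 N) (τ : ℍ) :
    (G : ℍ → ℂ) (γ • τ) = (G : ℍ → ℂ) τ := by
  have hB' : goodToHolo N B ≠ 0 := fun h => hB (goodToHolo_injective (by rw [h, map_zero]))
  have hBinv : precompSL γ (goodToHolo N B) = goodToHolo N B := by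
    apply Subtype.ext
    funext σ
    exact B.2.2.1 γ hγ σ
  have hAinv : precompSL γ (goodToHolo N A) = goodToHolo N A := by
    apply Subtype.ext
    funext σ
    exact A.2.2.1 γ hγ σ
  have h1 : precompSL γ G * goodToHolo N B = G * goodToHolo N B := by
    rw [hGB, ← hAinv, ← hGB, map_mul, hBinv]
  have h2 : precompSL γ G = G := mul_right_cancel₀ hB' h1
  have := congrArg (fun x : holoRing => (x : ℍ → ℂ) τ) h2
  simpa using this

end Fermat.Agent.S29.H882

namespace Fermat.Agent.S29.H882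

open Fermat.Agent.S24 Fermat.Agent.S24.H648 Fermat.Agent.S24.H708 Fermat.Agent.S24.Deg457
open Fermat.Agent.S24.H624

variable {N : ℕ}

/-- **Integral ⟹ good, abstract form.**  If `A / B` (`A`, `B` good, `B ≠ 0`) is a root of a monic
polynomial with good coefficients (`q`-expansion side), then `A = G * B` for a good `G`. -/
theorem exists_good_of_monic_root {A B : goodRing N} (hB : B ≠ 0) {Q : (goodRing N)[X]}
    (hQ : Q.Monic) (hroot : Q.eval₂ (qexpGood N) (qexpGood N A / qexpGood N B) = 0) :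
    ∃ G : goodRing N, G * B = A := by
  have _inst : IsDomain (goodRing N) := isDomain_goodRing
  have hs : B ∈ nonZeroDivisors (goodRing N) := mem_nonZeroDivisors_of_ne_zero hB
  have h1 := Polynomial.scaleRoots_eval₂_eq_zero_of_eval₂_div_eq_zero
    (qexpGood_injective (N := N)) hroot hs
  rw [Polynomial.eval₂_hom] at h1
  have h2 : (Polynomial.scaleRoots Q B).eval A = 0 :=
    qexpGood_injective (by rw [h1, map_zero])
  -- pass to the field of meromorphic functions
  set ψ : goodRing N →+* MerH := (algebraMap holoRing MerH).comp (goodToHolo N) with hψ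
  have hB' : goodToHolo N B ≠ 0 := fun h => hB (goodToHolo_injective (by rw [h, map_zero]))
  have hψB : ψ B ≠ 0 := algebraMap_MerH_ne_zero hB'
  have h3 : (Polynomial.scaleRoots Q B).eval₂ ψ (ψ A) = 0 := by
    rw [Polynomial.eval₂_hom, h2, map_zero]
  have h4 : ψ B ^ Q.natDegree * Q.eval₂ ψ (ψ A / ψ B) = 0 := by
    rw [← Polynomial.scaleRoots_eval₂_mul, mul_div_cancel₀ _ hψB]
    exact h3
  have h5 : Q.eval₂ ψ (ψ A / ψ B) = 0 := by
    rcases mul_eq_zero.mp h4 with h | h
    · exact absurd (eq_zero_of_pow_eq_zero h) hψB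
    · exact h
  have hintF : IsIntegral holoRing (ψ A / ψ B) :=
    ⟨Q.map (goodToHolo N), hQ.map _, by rw [Polynomial.eval₂_map]; exact h5⟩
  obtain ⟨G, hG⟩ := exists_holo_of_isIntegral hintF
  have hGB : G * goodToHolo N B = goodToHolo N A := by
    apply IsFractionRing.injective holoRing MerH
    rw [map_mul, hG]
    exact div_mul_cancel₀ _ hψB
  -- `G` is pointwise a root of `Q`
  have h6 : Q.eval₂ (goodToHolo N) G = 0 := by
    apply IsFractionRing.injective holoRing MerH
    rw [Polynomial.hom_eval₂, hG, map_zero]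
    exact h5
  have hrt : ∀ τ : ℍ, (Q.map (evalGood τ)).IsRoot ((G : ℍ → ℂ) τ) := by
    intro τ
    have h7 := congrArg (evalHolo τ) h6
    rw [Polynomial.hom_eval₂, map_zero, evalHolo_comp_goodToHolo] at h7
    rw [Polynomial.IsRoot.def, Polynomial.eval_map]
    exact h7
  have hGgood : (G : ℍ → ℂ) ∈ goodRing N :=
    ⟨G.2, fun γ hγ τ => invariant_of_mul_eq hB hGB γ hγ τ, expGrowth_of_monic_root hQ hrt⟩
  refine ⟨⟨G, hGgood⟩, ?_⟩
  apply goodToHolo_injective
  rw [map_mul]
  exact hGB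

/-- **`goodQ N` is integrally closed in the function field `F_ℂ`.** -/
theorem mem_goodQ_of_isIntegral [NeZero N] {x : LaurentSeries ℂ}
    (hx : x ∈ laurentBaseChange ℂ (modularFunctionFieldFull N))
    (hint : IsIntegral (goodQ N) x) : x ∈ goodQ N := by
  have hx' := laurentBaseChange_full_le (K := ℂ) N hx
  rw [IntermediateField.mem_adjoin_iff_div] at hx'
  obtain ⟨a, ha, b, hb, rfl⟩ := hx'
  by_cases hb0 : b = 0
  · subst hb0
    rw [div_zero]
    exact zero_mem _
  obtain ⟨A, rfl⟩ := mem_goodQ_iff_range.mp (AK_le_goodQ N ha)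
  obtain ⟨B, rfl⟩ := mem_goodQ_iff_range.mp (AK_le_goodQ N hb)
  have hB0 : B ≠ 0 := fun h => hb0 (by rw [h, map_zero])
  obtain ⟨P, hPm, hP⟩ := hint
  have hl : P.map (algebraMap (goodQ N) (LaurentSeries ℂ)) ∈ Polynomial.lifts (qexpGood N) := by
    rw [Polynomial.lifts_iff_coeff_lifts]
    intro n
    rw [Polynomial.coeff_map]
    exact mem_goodQ_iff_range.mp (P.coeff n).2
  obtain ⟨Q, hQ, -, hQm⟩ := Polynomial.lifts_and_natDegree_eq_and_monic hl (hPm.map _)
  have hQx : Q.eval₂ (qexpGood N) (qexpGood N A / qexpGood N B) = 0 := by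
    rw [← Polynomial.eval_map, hQ, Polynomial.eval_map]
    exact hP
  obtain ⟨G, hG⟩ := exists_good_of_monic_root hB0 hQm hQx
  refine mem_goodQ_iff_range.mpr ⟨G, ?_⟩
  rw [eq_div_iff hb0, ← map_mul, hG]

/-- `goodQ N` contains every element of `F_ℂ` which is integral over `ℂ[j]`
(converse of `exists_monic_of_mem_goodQ`). -/
theorem mem_goodQ_of_monic [NeZero N] {x : LaurentSeries ℂ}
    (hx : x ∈ laurentBaseChange ℂ (modularFunctionFieldFull N))
    {P : ℂ[X][X]} (hPm : P.Monic) (hP : P.eval₂ (evJ (JK ℂ)) x = 0) : x ∈ goodQ N := by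
  apply mem_goodQ_of_isIntegral hx
  let φ : ℂ[X] →+* goodQ N :=
    (evJ (JK ℂ)).codRestrict (goodQ N).toSubring (fun t => by
      rw [evJ_apply]
      exact AK_le_goodQ N (aeval_JK_mem_AK ℂ N t))
  refine ⟨P.map φ, hPm.map φ, ?_⟩
  rw [Polynomial.eval₂_map]
  have hcomp : (algebraMap (goodQ N) (LaurentSeries ℂ)).comp φ = evJ (JK ℂ) := by
    ext t <;> rfl
  rw [hcomp]
  exact hP

end Fermat.Agent.S29.H882
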