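import Fermat.Agent.S29.M4b.Defs
import Fermat.Agent.S29.H882.GlueInt

/-!
# S29 / K3 analytic glue kit (helper882), part 3: realisation of the output of the descent

`exists_realised_of_descent` : the output `f · g ^ p = ι f'` (`f = qexp (U ^ p)`, `g ∈ F_ℂ`,
`f' ∈ FF N`) of the algebraic descent (`H152.desc_main`, `H751.Echelon`, `H871`) gives the
conclusion of piece `K3` (`M4b.exists_realised_isTwisted`): a twisted function `U'` of the same
character whose `p`-th power realises an element of `FF N`.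
-/

set_option autoImplicit false

noncomputable section

open UpperHalfPlane ModularGroup CongruenceSubgroup Polynomial ModularCurve
open scoped MatrixGroups Manifold Modular Real

namespace Fermat.Agent.S29.H882

open Fermat.Agent.S24 Fermat.Agent.S24.H648 Fermat.Agent.S24.H708 Fermat.Agent.S24.Deg457
open Fermat.Agent.S24.H624 Fermat.Agent.S29 Fermat.Agent.S29.M4b

/-- The polynomial ring `K[j(q^d) : d ∣ N]` lies in the function field over `K`. -/
theorem AK_le_laurentBaseChange (K : Type*) [Field K] [Algebra ℚ K] (N : ℕ) :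
    AK K N ≤ (laurentBaseChange K (modularFunctionFieldFull N)).toSubalgebra := by
  apply Algebra.adjoin_le
  rintro _ ⟨y, hy, rfl⟩
  exact coeffEmb_mem_laurentBaseChange K (IntermediateField.subset_adjoin ℚ _ hy)

variable {N : ℕ}

/-- A twisted function as an element of `holoRing`. -/
def twistedHolo {p : ℕ} {c : G0 N → ZMod p} {U : ℍ → ℂ} (hU : IsTwisted N p c U) : holoRing :=
  ⟨U, hU.mdiff⟩

theorem twistedHolo_ne_zero {p : ℕ} {c : G0 N → ZMod p} {U : ℍ → ℂ} (hU : IsTwisted N p c U) :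
    twistedHolo hU ≠ 0 := by
  intro h
  obtain ⟨τ, hτ⟩ := hU.ne_zero
  apply hτ
  have := congrArg (fun x : holoRing => (x : ℍ → ℂ) τ) h
  simpa [twistedHolo] using this

/-- **Quotients of twisted functions.**  If `U` is twisted of character `c`, `A`, `B`, `C` are
good, `B ≠ 0`, and `V` is holomorphic with `U * A = V * B` and `V ^ p = C`, then `V` is twisted of
character `c` (provided `U * A ≠ 0`). -/
theorem isTwisted_of_mul_eq {p : ℕ} {c : G0 N → ZMod p} {U : ℍ → ℂ} (hU : IsTwisted N p c U)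
    {A B C : goodRing N} (hA : A ≠ 0) (hB : B ≠ 0) {V : holoRing}
    (hV : twistedHolo hU * goodToHolo N A = V * goodToHolo N B)
    (hVp : V ^ p = goodToHolo N C) : IsTwisted N p c (V : ℍ → ℂ) := by
  have hA' : goodToHolo N A ≠ 0 := fun h => hA (goodToHolo_injective (by rw [h, map_zero]))
  have hB' : goodToHolo N B ≠ 0 := fun h => hB (goodToHolo_injective (by rw [h, map_zero]))
  have hV0 : V ≠ 0 := by
    rintro rfl
    rw [zero_mul] at hV
    rcases mul_eq_zero.mp hV with h | h
    · exact twistedHolo_ne_zero hU h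
    · exact hA' h
  refine ⟨V.2, ?_, ?_, ?_⟩
  · by_contra hcon
    apply hV0
    apply Subtype.ext
    funext τ
    by_contra hτ
    exact hcon ⟨τ, hτ⟩
  · intro γ τ
    -- `D := V ∘ γ - ζ^k • V` is killed by `B`
    set k : ℕ := (c γ).val
    set D : holoRing := precompSL (γ : SL(2, ℤ)) V - algebraMap ℂ holoRing (zetaP p ^ k) * V
      with hD
    have hBinv : precompSL (γ : SL(2, ℤ)) (goodToHolo N B) = goodToHolo N B := by
      apply Subtype.ext
      funext σ
      exact B.2.2.1 γ γ.2 σ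
    have hAinv : precompSL (γ : SL(2, ℤ)) (goodToHolo N A) = goodToHolo N A := by
      apply Subtype.ext
      funext σ
      exact A.2.2.1 γ γ.2 σ
    have hUch : precompSL (γ : SL(2, ℤ)) (twistedHolo hU)
        = algebraMap ℂ holoRing (zetaP p ^ k) * twistedHolo hU := by
      apply Subtype.ext
      funext σ
      exact hU.hasChar γ σ
    have e1 : precompSL (γ : SL(2, ℤ)) V * goodToHolo N B
        = algebraMap ℂ holoRing (zetaP p ^ k) * (V * goodToHolo N B) := by
      calc precompSL (γ : SL(2, ℤ)) V * goodToHolo N B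
          = precompSL (γ : SL(2, ℤ)) V * precompSL (γ : SL(2, ℤ)) (goodToHolo N B) := by
            rw [hBinv]
        _ = precompSL (γ : SL(2, ℤ)) (V * goodToHolo N B) := (map_mul _ _ _).symm
        _ = precompSL (γ : SL(2, ℤ)) (twistedHolo hU * goodToHolo N A) := by rw [hV]
        _ = precompSL (γ : SL(2, ℤ)) (twistedHolo hU)
              * precompSL (γ : SL(2, ℤ)) (goodToHolo N A) := map_mul _ _ _
        _ = algebraMap ℂ holoRing (zetaP p ^ k) * twistedHolo hU * goodToHolo N A := by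
            rw [hUch, hAinv]
        _ = algebraMap ℂ holoRing (zetaP p ^ k) * (V * goodToHolo N B) := by
            rw [mul_assoc, hV]
    have hDB : D * goodToHolo N B = 0 := by
      rw [hD, sub_mul, e1]
      ring
    have hD0 : D = 0 := by
      rcases mul_eq_zero.mp hDB with h | h
      · exact h
      · exact absurd h hB'
    have h1 := congrArg (fun x : holoRing => (x : ℍ → ℂ) τ) hD0
    have h2 : (V : ℍ → ℂ) ((γ : SL(2, ℤ)) • τ) - zetaP p ^ k * (V : ℍ → ℂ) τ = 0 := h1
    exact sub_eq_zero.mp h2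
  · have h1 : (fun τ => (V : ℍ → ℂ) τ ^ p) = (C : ℍ → ℂ) := by
      have := congrArg (fun x : holoRing => (x : ℍ → ℂ)) hVp
      exact this
    rw [h1]
    exact C.2

/-- **REALISE.**  From the output of the descent to the conclusion of piece `K3`.

`U` twisted of character `c`, `g ≠ 0` in `F_ℂ`, `f'` in `FF N = F_ℚ̄` with
`qexp (U ^ p) * g ^ p = ι f'`.  Then there are a twisted `U'` of character `c` and `u : FF N` with
`U' ^ p` good of `q`-expansion `ι u`.  (`U' = U · g · b`, `u = f' · b ^ p`, where `b` is a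
denominator of `f'`.) -/
theorem exists_realised_of_descent [NeZero N] {p : ℕ} [NeZero p] {c : G0 N → ZMod p}
    {U : ℍ → ℂ} (hU : IsTwisted N p c U) {g : LaurentSeries ℂ}
    (hg : g ∈ laurentBaseChange ℂ (modularFunctionFieldFull N)) (hg0 : g ≠ 0)
    {f' : LaurentSeries Kbar} (hf' : f' ∈ laurentBaseChange Kbar (modularFunctionFieldFull N))
    (h : qexpFun 1 (fun τ => U τ ^ p) * g ^ p = coeffMap iotaC f') :
    ∃ (U' : ℍ → ℂ) (u : FF N), IsTwisted N p c U' ∧ Realises N u (fun τ => U' τ ^ p) := by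
  have _inst : IsDomain (goodRing N) := isDomain_goodRing
  have hp0 : p ≠ 0 := NeZero.ne p
  -- `G₀ = U ^ p` as a good function
  set G₀ : goodRing N := ⟨fun τ => U τ ^ p, hU.pow_mem⟩ with hG₀
  have hG₀q : qexpGood N G₀ = qexpFun 1 (fun τ => U τ ^ p) := rfl
  have hG₀0 : G₀ ≠ 0 := by
    intro h0
    obtain ⟨τ, hτ⟩ := hU.ne_zero
    have h1 : U τ ^ p = 0 := congrArg (fun x : goodRing N => (x : ℍ → ℂ) τ) h0
    exact hτ ((pow_eq_zero_iff hp0).mp h1)
  have hG₀q0 : qexpGood N G₀ ≠ 0 := fun h0 => hG₀0 (qexpGood_injective (by rw [h0, map_zero]))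
  -- write `g` and `f'` as fractions
  have hg' := laurentBaseChange_full_le (K := ℂ) N hg
  rw [IntermediateField.mem_adjoin_iff_div] at hg'
  obtain ⟨a', ha', b', hb', rfl⟩ := hg'
  have hf'' := laurentBaseChange_full_le (K := Kbar) N hf'
  rw [IntermediateField.mem_adjoin_iff_div] at hf''
  obtain ⟨a, ha, b, hb, rfl⟩ := hf''
  have ha'0 : a' ≠ 0 := by
    rintro rfl
    exact hg0 (zero_div _)
  have hb'0 : b' ≠ 0 := by
    rintro rfl
    exact hg0 (div_zero _)
  have hf0 : a / b ≠ 0 := by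
    intro h0
    rw [h0, map_zero] at h
    rcases mul_eq_zero.mp h with h1 | h1
    · exact hG₀q0 h1
    · exact hg0 (eq_zero_of_pow_eq_zero h1)
  have ha0 : a ≠ 0 := by
    rintro rfl
    exact hf0 (zero_div _)
  have hb0 : b ≠ 0 := by
    rintro rfl
    exact hf0 (div_zero _)
  have hιb0 : coeffMap iotaC b ≠ 0 := (map_ne_zero (coeffMap iotaC)).mpr hb0
  have hιa0 : coeffMap iotaC a ≠ 0 := (map_ne_zero (coeffMap iotaC)).mpr ha0
  obtain ⟨A', hA'⟩ := mem_goodQ_iff_range.mp (AK_le_goodQ N ha')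
  obtain ⟨B', hB'⟩ := mem_goodQ_iff_range.mp (AK_le_goodQ N hb')
  obtain ⟨A, hA⟩ := mem_goodQ_iff_range.mp (AK_le_goodQ N (coeffMap_mem_AK iotaC ha))
  obtain ⟨B, hB⟩ := mem_goodQ_iff_range.mp (AK_le_goodQ N (coeffMap_mem_AK iotaC hb))
  have hA'0 : A' ≠ 0 := fun h0 => ha'0 (by rw [← hA', h0, map_zero])
  have hB'0 : B' ≠ 0 := fun h0 => hb'0 (by rw [← hB', h0, map_zero])
  have hB0 : B ≠ 0 := fun h0 => hιb0 (by rw [← hB, h0, map_zero])
  -- the key identity of `q`-expansions
  have hp1 : p - 1 + 1 = p := Nat.sub_add_cancel (Nat.pos_of_ne_zero hp0)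
  have h1 : qexpFun 1 (fun τ => U τ ^ p) * a' ^ p * coeffMap iotaC b
      = coeffMap iotaC a * b' ^ p := by
    rw [map_div₀, div_pow, ← mul_div_assoc] at h
    exact (div_eq_div_iff (pow_ne_zero p hb'0) hιb0).mp h
  have key : G₀ * A' ^ p * B ^ p = A * B ^ (p - 1) * B' ^ p := by
    apply qexpGood_injective
    simp only [map_mul, map_pow, hA', hB', hA, hB, hG₀q]
    have hpow : coeffMap iotaC b ^ p = coeffMap iotaC b ^ (p - 1) * coeffMap iotaC b := by
      rw [← pow_succ, hp1]
    rw [hpow]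
    linear_combination (coeffMap iotaC b ^ (p - 1)) * h1
  -- the same identity among holomorphic functions
  have hG₀h : goodToHolo N G₀ = twistedHolo hU ^ p := rfl
  have key' : (twistedHolo hU * goodToHolo N (A' * B)) ^ p
      = goodToHolo N (A * B ^ (p - 1)) * goodToHolo N B' ^ p := by
    have h2 := congrArg (goodToHolo N) key
    simp only [map_mul, map_pow] at h2
    rw [hG₀h] at h2
    rw [map_mul, map_mul, map_pow, mul_pow, mul_pow]
    linear_combination h2
  have hB'h : goodToHolo N B' ≠ 0 := fun h0 => hB'0 (goodToHolo_injective (by rw [h0, map_zero]))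
  obtain ⟨V, hV1, hV2⟩ := exists_holo_div_of_pow hp0 hB'h key'
  have hTw : IsTwisted N p c (V : ℍ → ℂ) :=
    isTwisted_of_mul_eq hU (mul_ne_zero hA'0 hB0) hB'0 hV1 hV2
  refine ⟨V, ⟨a * b ^ (p - 1),
    AK_le_laurentBaseChange Kbar N (mul_mem ha (pow_mem hb _))⟩, hTw, hTw.pow_mem, ?_⟩
  have h3 : (fun τ => (V : ℍ → ℂ) τ ^ p) = ((A * B ^ (p - 1) : goodRing N) : ℍ → ℂ) :=
    congrArg (fun x : holoRing => (x : ℍ → ℂ)) hV2
  rw [h3]
  show qexpGood N (A * B ^ (p - 1)) = _
  rw [map_mul, map_pow, hA, hB, map_mul, map_pow]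

end Fermat.Agent.S29.H882
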